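/-
S56, WALL W4, CASE C (supersingular: no inertia coinvariants on `ρbar`).  ARCHITECT FILE (helper82):
definitions and the EXACT interface statements (as `Prop`s) of the blocks.  FIXED.
Blueprint: NOTES/blueprint-W4C.md.

Notation: `P = primeLocalPlace p`, `I` its inertia group, `R' = inertiaRing P`, `N = p² - 1`,
`v` the valuation of `P` normalised by `v(p) = 1`.  Valuation inequalities are written as
memberships: `ValGE x a b` is `v(x) ≥ a/b`, `ValLE x a b` is `x ≠ 0 ∧ v(x) ≤ a/b`.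

BLOCKS
* D  (`T3Prop`, `OrderPProp`): discriminant + Fourier duality for `I`-orders on simple modules.
* S  (`SStructProp`)         : structure of `ρbar|I` in case C (`ψ ⊕ ψ^p`, `ψ` of order `p² - 1`).
* TR (`HopfSideProp`)        : flat tangent cocycles satisfy `CheapProp` and `SharpProp`
                               (translation formula + norm trick, on sub-quotients of order `p⁴`).
* KT (`FieldTProp`)          : `CheapProp ∧ SharpProp` ⟹ `GoodCoc` (Kummer depth lemma + equivariance).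
* KN (`CountProp`)           : the good classes restrict to at most `|k|` local classes.
-/
import Fermat.Agent.S56.Local.Walls
import Fermat.Agent.Lib.FFL.Defs
import Fermat.Prelude.Def_GaloisRep_Flat

set_option autoImplicit false

namespace Fermat.Agent.S56.SS

open Fermat.Agent.F4 ExtCitation Fermat.Agent.FFL Fermat.Agent.FlatMod

local notation "Kb" => AlgebraicClosure ℚ
local notation "GK" => (AlgebraicClosure ℚ ≃ₐ[ℚ] AlgebraicClosure ℚ)

/-! ### `I`-orders -/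

/-- An `I`-order on `W`: an `R'`-subalgebra of functions `W → ℚ̄`, finitely generated as a module,
whose elements are inertia-equivariant and `P`-valued, closed under comultiplication and under
`w ↦ -w`, and spanning all functions over `ℚ̄`. -/
structure IOrd (P : ValuationSubring Kb) (W : Type*) [AddCommGroup W] (act : GK → W → W) where
  alg : Subalgebra (inertiaRing P) (W → Kb)
  fg : (Subalgebra.toSubmodule alg).FG
  equiv : ∀ f ∈ alg, ∀ σ ∈ P.inertiaSubgroupIn ℚ, ∀ w : W, f (act σ w) = σ (f w)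
  int : ∀ f ∈ alg, ∀ w : W, f w ∈ P
  comul : ComulClosed (alg : Set (W → Kb))
  neg : ∀ f ∈ alg, (fun w => f (-w)) ∈ alg
  span : Submodule.span Kb (alg : Set (W → Kb)) = ⊤

/-- `act` is an action of the inertia group by additive maps. -/
def IsIAction (P : ValuationSubring Kb) {W : Type*} [AddCommGroup W] (act : GK → W → W) : Prop :=
  (∀ σ ∈ P.inertiaSubgroupIn ℚ, ∀ w w' : W, act σ (w + w') = act σ w + act σ w') ∧
  (∀ w : W, act 1 w = w) ∧
  ∀ σ ∈ P.inertiaSubgroupIn ℚ, ∀ τ ∈ P.inertiaSubgroupIn ℚ, ∀ w : W,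
    act (σ * τ) w = act σ (act τ w)

/-- `v(x) ≥ a / b` (for `v(p) = 1`). -/
def ValGE (p : ℕ) (P : ValuationSubring Kb) (x : Kb) (a b : ℕ) : Prop :=
  x ^ b / (p : Kb) ^ a ∈ P

/-- `x ≠ 0` and `v(x) ≤ a / b` (for `v(p) = 1`). -/
def ValLE (p : ℕ) (P : ValuationSubring Kb) (x : Kb) (a b : ℕ) : Prop :=
  x ≠ 0 ∧ (p : Kb) ^ a / x ^ b ∈ P

/-! ### Block D -/

/-- **T3** (block D): an `I`-order on a SIMPLE module `W` of order `p²` on which inertia acts
through a cyclic group: inertia is transitive on `W \ 0` and some function `Z` of the order with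
`Z 0 = 0` has `v(Z a) = 1 / (p² - 1)` at every `a ≠ 0`. -/
def T3Prop (p : ℕ) (P : ValuationSubring Kb) : Prop :=
  p.Prime → p ≠ 2 → P.LiesOverPrime p →
  ∀ (W : Type) [AddCommGroup W] [Finite W] (act : GK → W → W) (_O : IOrd P W act),
    IsIAction P act → Nat.card W = p ^ 2 →
    (∃ τ₀ ∈ P.inertiaSubgroupIn ℚ, ∀ σ ∈ P.inertiaSubgroupIn ℚ, ∃ n : ℕ,
      ∀ w : W, act σ w = (act τ₀)^[n] w) →
    (∀ N : AddSubgroup W, (∀ σ ∈ P.inertiaSubgroupIn ℚ, ∀ n ∈ N, act σ n ∈ N) →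
      N = ⊥ ∨ N = ⊤) →
    (∀ a b : W, a ≠ 0 → b ≠ 0 → ∃ σ ∈ P.inertiaSubgroupIn ℚ, act σ a = b) ∧
    ∃ Z ∈ _O.alg, Z 0 = 0 ∧
      ∀ a : W, a ≠ 0 → ValGE p P (Z a) 1 (p ^ 2 - 1) ∧ ValLE p P (Z a) 1 (p ^ 2 - 1)

/-- **Order `p`** (block D): on a module of order `p` carrying an `I`-order, inertia acts trivially
or through the cyclotomic character. -/
def OrderPProp (p : ℕ) (P : ValuationSubring Kb) : Prop :=
  p.Prime → p ≠ 2 → P.LiesOverPrime p →
  ∀ (W : Type) [AddCommGroup W] [Finite W] (act : GK → W → W) (_O : IOrd P W act),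
    IsIAction P act → Nat.card W = p →
    (∀ σ ∈ P.inertiaSubgroupIn ℚ, ∀ w : W, act σ w = w) ∨
    ∀ σ ∈ P.inertiaSubgroupIn ℚ, ∀ a : ℕ, (∀ μ : Kb, μ ^ p = 1 → σ μ = μ ^ a) →
      ∀ w : W, act σ w = a • w

/-! ### Block S -/

variable (p : ℕ) [Fact p.Prime] {k : Type} [Field k]

/-- The place at `p`. -/
noncomputable abbrev Pp : ValuationSubring Kb := primeLocalPlace (pPrime p)

/-- The inertia group at `p`. -/
noncomputable abbrev Ip : Subgroup GK := (Pp p).inertiaSubgroupIn ℚ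

/-- The decomposition group at `p`. -/
noncomputable abbrev Dp : Subgroup GK := (Pp p).decompositionSubgroup ℚ

/-- The supersingular structure of `ρbar` at `p`: an eigenbasis for inertia, with characters
`ψ, ψ^p`, `ψ` with values in `𝔽_{p²}` and of exact order `p² - 1`, inertia acting through the cyclic
group generated by `τ`. -/
structure SSStruct (ρbar : ResidualGaloisRep k) where
  b : Module.Basis (Fin 2) k ρbar.V
  ψ : GK → k
  diag0 : ∀ σ ∈ Ip p, ρbar.ρ σ (b 0) = ψ σ • b 0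
  diag1 : ∀ σ ∈ Ip p, ρbar.ρ σ (b 1) = (ψ σ) ^ p • b 1
  fp2 : ∀ σ ∈ Ip p, (ψ σ) ^ (p ^ 2) = ψ σ
  τ : GK
  τ_mem : τ ∈ Ip p
  gen : ∀ σ ∈ Ip p, ∃ n : ℕ, ψ σ = (ψ τ) ^ n
  ne_zero : ψ τ ≠ 0
  ord : ∀ n : ℕ, 0 < n → (ψ τ) ^ n = 1 → p ^ 2 - 1 ≤ n
  /-- a uniformiser of the field cut out by `ρbar|I`: `v(ϖ) = 1 / (p² - 1)` -/
  ϖ : Kb
  ϖ_ge : ValGE p (Pp p) ϖ 1 (p ^ 2 - 1)
  ϖ_le : ValLE p (Pp p) ϖ 1 (p ^ 2 - 1)
  ϖ_fix : ∀ σ ∈ Ip p, ψ σ = 1 → σ ϖ = ϖ
  /-- the tame character `σ ↦ σ ϖ / ϖ mod 𝔪` is (a conjugate of) `ψ`: `τ ϖ / ϖ` is a root modulo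
  `𝔪_P` of the minimal polynomial `X² - t X + n` of `ψ τ` over `𝔽_p` -/
  ϖ_char : ∃ t n : ℤ, (t : k) = ψ τ + (ψ τ) ^ p ∧ (n : k) = (ψ τ) ^ (p + 1) ∧
    ((τ ϖ) ^ 2 - (t : Kb) * (τ ϖ) * ϖ + (n : Kb) * ϖ ^ 2) / ϖ ^ 2 ∈ (Pp p).nonunits

/-- The action of `G_ℚ` on `ρbar.V` as a function. -/
noncomputable def actOf (ρbar : ResidualGaloisRep k) : GK → ρbar.V → ρbar.V := fun σ v => ρbar.ρ σ v

/-- **Block S**: in case C (`ρbar` flat at `p`, determinant cyclotomic, split characteristic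
polynomials, no inertia coinvariants) `ρbar` has a supersingular structure at `p`. -/
def SStructProp : Prop :=
  ∀ (k : Type) [Field k] [Finite k] (ρbar : ResidualGaloisRep k), p ≠ 2 →
    (GaloisRepAdic.ofResidualGaloisRep ρbar).DetIsCyclotomic p →
    (∀ σ : GK, ∃ α β : k, LinearMap.charpoly (ρbar.ρ σ) =
      (Polynomial.X - Polynomial.C α) * (Polynomial.X - Polynomial.C β)) →
    IsFlatGaloisModule p ρbar.V (actOf ρbar) →
    (∀ v : ρbar.V, v ∈ augI (Pp p) (actOf ρbar)) →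
    Nonempty (SSStruct p ρbar)

/-! ### Interface Hopf side → field side -/

variable {p}

/-- The matrix entry `(i, j)` of `c σ` in the basis of `s`. -/
noncomputable def ent {ρbar : ResidualGaloisRep k} (s : SSStruct p ρbar)
    (c : GK → Module.End k ρbar.V) (i j : Fin 2) (σ : GK) : k :=
  s.b.repr (c σ (s.b j)) i

/-- `I₁`: the inertia elements acting trivially on `ρbar`. -/
def I1 {ρbar : ResidualGaloisRep k} (s : SSStruct p ρbar) : Set GK :=
  {σ | σ ∈ Ip p ∧ s.ψ σ = 1}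

/-- **CHEAP**: for every entry `(i, j)` and every subgroup `S'` of index `p` of `k`: if `g ∈ I₁` has
`c_ij(g) ∉ S'`, some `x ∈ P`, fixed by the `h ∈ I₁` with `c_ij(h) ∈ S'`, has
`v(g x - x) ≤ p / (p² - 1)`. -/
def CheapProp {ρbar : ResidualGaloisRep k} (s : SSStruct p ρbar)
    (c : GK → Module.End k ρbar.V) : Prop :=
  ∀ (i j : Fin 2) (S' : AddSubgroup k), S'.index = p → ∀ g ∈ I1 s, ent s c i j g ∉ S' →
    ∃ x ∈ Pp p, (∀ h ∈ I1 s, ent s c i j h ∈ S' → h x = x) ∧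
      ValLE p (Pp p) (g x - x) p (p ^ 2 - 1)

/-- **SHARP**: for a diagonal entry `(i, i)` and every `ψ`-stable subgroup `S` of index `p²` of
`k`: if `g ∈ I₁` has `c_ii(g) ∉ S`, some `x ∈ P`, fixed by the `h ∈ I₁` with `c_ii(h) ∈ S`, has
`v(g x - x) ≤ 1 / (p² - 1)`. -/
def SharpProp {ρbar : ResidualGaloisRep k} (s : SSStruct p ρbar)
    (c : GK → Module.End k ρbar.V) : Prop :=
  ∀ (i : Fin 2) (S : AddSubgroup k), S.index = p ^ 2 →
    (∀ σ ∈ Ip p, ∀ z ∈ S, s.ψ σ * z ∈ S) → ∀ g ∈ I1 s, ent s c i i g ∉ S →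
    ∃ x ∈ Pp p, (∀ h ∈ I1 s, ent s c i i h ∈ S → h x = x) ∧
      ValLE p (Pp p) (g x - x) 1 (p ^ 2 - 1)

/-- The module of the deformation `(1 + ε c) ρbar`: `V × V` (`(v₀, v₁) = v₀ + ε v₁`) with the
action `σ (v₀, v₁) = (ρbar σ v₀, c σ (ρbar σ v₀) + ρbar σ v₁)`. -/
noncomputable def defAct (ρbar : ResidualGaloisRep k) (c : GK → Module.End k ρbar.V) :
    GK → ρbar.V × ρbar.V → ρbar.V × ρbar.V :=
  fun σ x => (ρbar.ρ σ x.1, c σ (ρbar.ρ σ x.1) + ρbar.ρ σ x.2)

variable (p)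

/-- **Block TR** (Hopf side): a flat tangent module satisfies CHEAP and SHARP. -/
def HopfSideProp : Prop :=
  ∀ (k : Type) [Field k] [Finite k] (ρbar : ResidualGaloisRep k) (s : SSStruct p ρbar),
    p ≠ 2 → ∀ c : GK → Module.End k ρbar.V,
    (∀ σ τ : GK, c (σ * τ) = c σ + ρbar.ρ σ * c τ * ρbar.ρ σ⁻¹) →
    IsFlatGaloisModule p (ρbar.V × ρbar.V) (defAct ρbar c) →
    CheapProp s c ∧ SharpProp s c

/-! ### Field side -/

/-- A fixed primitive `p`-th root of unity. -/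
noncomputable def zetaP : Kb :=
  Classical.choose (HasEnoughRootsOfUnity.exists_primitiveRoot Kb p)

theorem zetaP_spec : IsPrimitiveRoot (zetaP p) p :=
  Classical.choose_spec (HasEnoughRootsOfUnity.exists_primitiveRoot Kb p)

variable {p}

/-- `χ` (a character of `I₁`) is GOOD: it has a Kummer generator `β` on `I₁`
(`γ β = ζ^{χ γ} β`) with `v(β - 1) ≥ (p² + 1) / (p (p² - 1))`. -/
def GoodChar {ρbar : ResidualGaloisRep k} (s : SSStruct p ρbar) (χ : GK → ZMod p) : Prop :=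
  ∃ β : Kb, β ≠ 0 ∧ (∀ γ ∈ I1 s, γ β = zetaP p ^ (χ γ).val * β) ∧
    ValGE p (Pp p) (β - 1) (p ^ 2 + 1) (p * (p ^ 2 - 1))

/-- `c` is GOOD: all the characters `λ ∘ c_ij` of `I₁` are good. -/
def GoodCoc {ρbar : ResidualGaloisRep k} (s : SSStruct p ρbar)
    (c : GK → Module.End k ρbar.V) : Prop :=
  ∀ (i j : Fin 2) (l : k →+ ZMod p), GoodChar s (fun γ => l (ent s c i j γ))

variable (p)

/-- **Block KT** (field side, T): a level-constant trace-zero cocycle satisfying CHEAP and SHARP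
is good. -/
def FieldTProp : Prop :=
  ∀ (k : Type) [Field k] [Finite k] (ρbar : ResidualGaloisRep k) (s : SSStruct p ρbar),
    p ≠ 2 → (GaloisRepAdic.ofResidualGaloisRep ρbar).DetIsCyclotomic p →
    ∀ c : ↥(Z1 levelsAll (ad0 ρbar)),
      CheapProp s (fun σ => ((c : GQ → ad0 ρbar) σ : ↥(ad0Sub ρbar)).1) →
      SharpProp s (fun σ => ((c : GQ → ad0 ρbar) σ : ↥(ad0Sub ρbar)).1) →
      GoodCoc s (fun σ => ((c : GQ → ad0 ρbar) σ : ↥(ad0Sub ρbar)).1)

variable {p}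

/-- The classes of `H¹(G_ℚ, ad⁰ρbar)` with a good representative. -/
def goodSet {ρbar : ResidualGaloisRep k} (s : SSStruct p ρbar) :
    Set (H1sm levelsAll (ad0 ρbar)) :=
  {x | ∃ c : ↥(Z1 levelsAll (ad0 ρbar)), H1smπ levelsAll (ad0 ρbar) c = x ∧
    GoodCoc s (fun σ => ((c : GQ → ad0 ρbar) σ : ↥(ad0Sub ρbar)).1)}

variable (p)

/-- **Block KN** (field side, N): the restrictions at `p` of the good classes lie in a finite
subgroup of `H¹(G_p, ad⁰ρbar)` with at most `|k|` elements. -/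
def CountProp : Prop :=
  ∀ (k : Type) [Field k] [Finite k] (ρbar : ResidualGaloisRep k) (s : SSStruct p ρbar),
    p ≠ 2 → (GaloisRepAdic.ofResidualGaloisRep ρbar).DetIsCyclotomic p →
    ∃ L : AddSubgroup (H1loc (ad0 ρbar) (pPrime p)),
      (∀ x ∈ goodSet s, resLoc (ad0 ρbar) (pPrime p) x ∈ L) ∧ Finite L ∧ Nat.card L ≤ Nat.card k

end Fermat.Agent.S56.SS
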