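/-
S56, WALL W4, CASE C (supersingular): ASSEMBLY (helper82).

`localWall_flat_ss_of_props`: the wall in case C from the four interface statements of
`S56/W4/C/Defs.lean` (`SStructProp`, `HopfSideProp`, `FieldTProp`, `CountProp`).
Blueprint: NOTES/blueprint-W4C.md.
-/
import Fermat.Agent.S56.W4.C.Defs
import Fermat.Agent.S56.W3.SO.Tangent.Red
import Fermat.Agent.Lib.FFL.Free

set_option autoImplicit false

namespace Fermat.Agent.S56.SS

open Fermat.Agent.F4 ExtCitation Fermat.Agent.FFL Fermat.Agent.FlatMod IsLocalRing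
open Fermat.Agent.S56.SO
open scoped TensorProduct

local notation "Kb" => AlgebraicClosure ℚ
local notation "GK" => (AlgebraicClosure ℚ ≃ₐ[ℚ] AlgebraicClosure ℚ)

variable {k : Type} [Field k]

/-- The additive equivalence `k[ε] ⊗ V ≃ V × V`, `u ↦ (u₀, u₁)` for `u = u₀ + ε u₁`. -/
noncomputable def redEquiv (V : Type) [AddCommGroup V] [Module k V] :
    (DualNumber k ⊗[k] V) ≃+ V × V where
  toFun u := (redFst u, redSnd u)
  invFun x := (1 : DualNumber k) ⊗ₜ[k] x.1 +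
    (DualNumber.eps : DualNumber k) • ((1 : DualNumber k) ⊗ₜ[k] x.2)
  left_inv u := (eq_redFst_add_redSnd u).symm
  right_inv x := by
    refine Prod.ext ?_ ?_
    · show redFst _ = x.1
      rw [map_add, redFst_eps_smul, redFst_one_tmul, add_zero]
    · show redSnd _ = x.2
      rw [map_add, redSnd_eps_smul, redSnd_one_tmul, redFst_one_tmul, zero_add]
  map_add' u v := by
    refine Prod.ext ?_ ?_
    · show redFst (u + v) = redFst u + redFst v
      rw [map_add]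
    · show redSnd (u + v) = redSnd u + redSnd v
      rw [map_add]

omit [Field k] in
theorem finite_dualNumber_ss [Finite k] : Finite (DualNumber k) :=
  Finite.of_injective (fun x : DualNumber k => (TrivSqZeroExt.fst x, TrivSqZeroExt.snd x))
    (fun _ _ h => TrivSqZeroExt.ext (congrArg Prod.fst h) (congrArg Prod.snd h))

/-- The module `V × V` of a flat tangent point is a flat Galois module. -/
theorem defAct_flat [Finite k] (p : ℕ) (ρbar : ResidualGaloisRep k) (c : GQ → ad0 ρbar)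
    (ρ : GaloisRepAdic (DualNumber k)) (hdef : IsDefOf ρbar c ρ) (hfl : ρ.IsFlatAt p) :
    IsFlatGaloisModule p (ρbar.V × ρbar.V)
      (defAct ρbar (fun σ => (c σ : ↥(ad0Sub ρbar)).1)) := by
  obtain ⟨e, he⟩ := hdef
  have : Finite (DualNumber k) := finite_dualNumber_ss
  have h1 := isFlatGaloisModule_of_isFlatAt ρ hfl
  refine h1.of_equiv (e.symm.toAddEquiv.trans (redEquiv ρbar.V)) ?_
  intro σ x
  obtain ⟨u, rfl⟩ := e.surjective x
  have h2 : e.symm (ρ.ρ σ (e u)) = defEnd ρbar (c σ : ↥(ad0Sub ρbar)).1 σ u := by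
    rw [he σ u, LinearEquiv.symm_apply_apply]
  show redEquiv ρbar.V (e.symm (ρ.ρ σ (e u))) = defAct ρbar _ σ (redEquiv ρbar.V (e.symm (e u)))
  rw [h2, LinearEquiv.symm_apply_apply]
  refine Prod.ext ?_ ?_
  · show redFst (defEnd ρbar _ σ u) = ρbar.ρ σ (redFst u)
    rw [redFst_defEnd]
  · show redSnd (defEnd ρbar _ σ u) = (c σ : ↥(ad0Sub ρbar)).1 (ρbar.ρ σ (redFst u)) +
      ρbar.ρ σ (redSnd u)
    rw [redSnd_defEnd, add_comm]

/-- `ρbar` itself is flat when a flat tangent point exists. -/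
theorem actOf_flat [Finite k] (p : ℕ) [Fact p.Prime] (ρbar : ResidualGaloisRep k)
    (c : GQ → ad0 ρbar) (ρ : GaloisRepAdic (DualNumber k)) (hdef : IsDefOf ρbar c ρ)
    (hfl : ρ.IsFlatAt p) : IsFlatGaloisModule p ρbar.V (actOf ρbar) :=
  (defAct_flat p ρbar c ρ hdef hfl).quot (AddMonoidHom.fst ρbar.V ρbar.V)
    (fun v => ⟨(v, 0), rfl⟩) (fun _ _ => rfl)

/-- The cocycle identity of a level-constant cocycle of `ad⁰ρbar`, as endomorphisms. -/
theorem cocycle_end (ρbar : ResidualGaloisRep k) (c : ↥(Z1 levelsAll (ad0 ρbar))) (σ τ : GQ) :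
    ((c : GQ → ad0 ρbar) (σ * τ) : ↥(ad0Sub ρbar)).1 =
      ((c : GQ → ad0 ρbar) σ : ↥(ad0Sub ρbar)).1 +
        ρbar.ρ σ * ((c : GQ → ad0 ρbar) τ : ↥(ad0Sub ρbar)).1 * ρbar.ρ σ⁻¹ := by
  have h1 := (groupCohomology.mem_cocycles₁_iff (c : GQ → ad0 ρbar)).mp c.2.1 σ τ
  have h2 : ((c : GQ → ad0 ρbar) (σ * τ) : ↥(ad0Sub ρbar)).1 =
      (((ad0 ρbar).ρ σ ((c : GQ → ad0 ρbar) τ) + (c : GQ → ad0 ρbar) σ : ad0 ρbar) :
        ↥(ad0Sub ρbar)).1 := by rw [h1]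
  rw [h2, add_comm, mul_assoc]
  rfl

/-- **W4, case C, from the interface statements.** -/
theorem localWall_flat_ss_of_props {𝒪 : Type} [CommRing 𝒪] [IsLocalRing 𝒪]
    [Finite (ResidueField 𝒪)]
    (p : ℕ) [Fact p.Prime] (hp2 : p ≠ 2)
    (hS : SStructProp p) (hH : HopfSideProp p) (hT : FieldTProp p) (hN : CountProp p)
    (ρbar : ResidualGaloisRep (ResidueField 𝒪))
    (hdet : (GaloisRepAdic.ofResidualGaloisRep ρbar).DetIsCyclotomic p)
    (hsplit : ∀ σ : GK, ∃ α β : ResidueField 𝒪, LinearMap.charpoly (ρbar.ρ σ) =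
      (Polynomial.X - Polynomial.C α) * (Polynomial.X - Polynomial.C β))
    (𝒟 : ∀ ⦃A : Type⦄ [CommRing A] [IsLocalRing A] [Algebra 𝒪 A], GaloisRepAdic A → Prop)
    (h𝒟 : ∀ ⦃A : Type⦄ [CommRing A] [IsLocalRing A] [Algebra 𝒪 A] (ρ : GaloisRepAdic A),
      𝒟 ρ → ρ.DetIsCyclotomic p ∧ ρ.IsFlatAt p)
    (hss : ∀ v : ρbar.V, v ∈ augI (Pp p) (actOf ρbar)) :
    LocalWall (ad0 ρbar) (TangentClasses 𝒪 ρbar 𝒟) (pPrime p)
      (Nat.card (ResidueField 𝒪)) := by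
  classical
  have hfinM : Finite (ad0 ρbar) :=
    Module.finite_of_finite (ResidueField 𝒪) (M := ↥(ad0Sub ρbar))
  by_cases hTn : (TangentClasses 𝒪 ρbar 𝒟).Nonempty
  · obtain ⟨x₀, c₀, -, ρ₀, hρ₀, hdef₀⟩ := hTn
    have hfl₀ := (@h𝒟 _ _ _ (Fermat.Agent.S53.dualNumberAlgebra 𝒪) ρ₀ hρ₀.1).2
    obtain ⟨s⟩ := hS (ResidueField 𝒪) ρbar hp2 hdet hsplit
      (actOf_flat p ρbar c₀.1 ρ₀ hdef₀ hfl₀) hss
    obtain ⟨L, hL, hfin, hcard⟩ := hN (ResidueField 𝒪) ρbar s hp2 hdet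
    refine ⟨L, ?_, hfin, hcard.trans (Nat.le_mul_of_pos_right _ Nat.card_pos)⟩
    rintro x ⟨c, rfl, ρ, hρ, hdef⟩
    have hfl := (@h𝒟 _ _ _ (Fermat.Agent.S53.dualNumberAlgebra 𝒪) ρ hρ.1).2
    obtain ⟨hch, hsh⟩ := hH (ResidueField 𝒪) ρbar s hp2
      (fun σ => ((c : GQ → ad0 ρbar) σ : ↥(ad0Sub ρbar)).1) (cocycle_end ρbar c)
      (defAct_flat p ρbar c.1 ρ hdef hfl)
    exact hL _ ⟨c, rfl, hT (ResidueField 𝒪) ρbar s hp2 hdet c hch hsh⟩
  · refine ⟨⊥, fun x hx => (hTn ⟨x, hx⟩).elim, inferInstance, ?_⟩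
    rw [AddSubgroup.card_bot]
    exact Nat.one_le_iff_ne_zero.mpr (Nat.mul_ne_zero Nat.card_pos.ne' Nat.card_pos.ne')

end Fermat.Agent.S56.SS
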